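import Fermat.Agent.Ribet.H940.Inst
import Fermat.Agent.Ribet.H764.I3Res

/-!
# RIBET wall-p, leaf I3 / INC-RED (helper940): the frozen shape

`incRed5 : Fermat.Agent.Ribet.H764.I3.IncRed5Statement` (frozen in `Ribet/H764/I3Res.lean`):
for `p ≥ 5`, `p ∤ M`, `A ⊆ ℚ̄` over `p` and `c : ℕ → ℤ`, if `(∑ c_n qⁿ) dq/q` is holomorphic on
`X₀(M)` over `ℚ̄` then its reduction is holomorphic on `X₀(M)` over `A/𝔪`.

`incRedGood` : the same at all good levels (`p = 3, 2 ∣ M` and `p = 2, 3 ∣ M` included).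
-/

set_option autoImplicit false

namespace Fermat.Agent.Ribet.H940

open Fermat.Agent.Ribet.H764.I3

/-- **INC-RED**, frozen shape (`p ≥ 5`). -/
theorem incRed5 : IncRed5Statement := by
  intro p M _ hp h5 hpM A hA c h
  exact incRed p M hp hpM (Or.inl h5) A hA c h

/-- **INC** at the residue fields from INC-AN. -/
theorem inc5_of_incAn (hAn : IncAnStatement) : Inc5Statement :=
  inc5_of hAn incRed5

end Fermat.Agent.Ribet.H940
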