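import Fermat.Agent.Ribet.H764.I3Final
import Fermat.Agent.Ribet.H584.IncAnLocal
import Fermat.Agent.Ribet.H940.IncRed5
import Fermat.Agent.Ribet.H537.Dim5

/-!
# RIBET wall-p, I3 = W-R3P CLOSED at the residue fields, `p ≥ 5` (wiring, helper940)

`r3p5 : H764.I3.R3P5Statement`, from the four landed leaves:

* INC-AN  `H584.incAn`   (helper584),
* INC-RED `H940.incRed5` (helper940; lean closure),
* DIMK    `H537.dim5`    (helper537),
* LOGHOL  `H751.logHol`  (helper751, via `H764.I3.logHol5_proved`).
-/

set_option autoImplicit false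

namespace Fermat.Agent.Ribet.H940

open Fermat.Agent.Ribet.H764.I3

/-- INC-AN in the frozen shape. -/
theorem incAn_proved : IncAnStatement :=
  fun M _ g hg => Fermat.Agent.Ribet.H584.incAn M g hg

/-- **I3 = W-R3P at the residue fields, `p ≥ 5`: PROVED.** -/
theorem r3p5 : R3P5Statement :=
  r3p5_of_open incAn_proved incRed5 Fermat.Agent.Ribet.H537.dim5

end Fermat.Agent.Ribet.H940
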