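import Mathlib

/-!
# RIBET wall-p, leaf I3 (helper940): derivations of separably generated fields in characteristic `p`

`E / k(x)` separable algebraic, `char k = p`, `D : Derivation k E M`:

* `exists_smul_of_isSeparable` : every `D f` is a multiple `z • D x`, `z ∈ E`;
* `exists_pow_eq_of_derivation_eq_zero` : if `k` is perfect and `D x ≠ 0`, then `D f = 0` only for
  `p`-th powers.
-/

set_option autoImplicit false
set_option linter.unusedSectionVars false
set_option linter.style.haveILetI false

noncomputable section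

namespace Fermat.Agent.Ribet.H940

open IntermediateField Polynomial

section Sep

variable {k E M : Type*} [Field k] [Field E] [Algebra k E] [AddCommGroup M] [Module E M]
  [Module k M]

/-- the elements whose derivative is a multiple of `D x` -/
def derMulField (D : Derivation k E M) (x : E) : IntermediateField k E where
  carrier := {f | ∃ z : E, D f = z • D x}
  mul_mem' := by
    rintro f g ⟨zf, hf⟩ ⟨zg, hg⟩
    refine ⟨f * zg + g * zf, ?_⟩
    rw [D.leibniz, hf, hg, smul_smul, smul_smul, add_smul]
  one_mem' := ⟨0, by rw [D.map_one_eq_zero, zero_smul]⟩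
  add_mem' := by
    rintro f g ⟨zf, hf⟩ ⟨zg, hg⟩
    exact ⟨zf + zg, by rw [map_add, hf, hg, add_smul]⟩
  zero_mem' := ⟨0, by rw [map_zero, zero_smul]⟩
  algebraMap_mem' := fun c => ⟨0, by rw [D.map_algebraMap, zero_smul]⟩
  inv_mem' := by
    rintro f ⟨zf, hf⟩
    refine ⟨-f⁻¹ ^ 2 * zf, ?_⟩
    rw [D.leibniz_inv, hf, smul_smul]

theorem mem_derMulField {D : Derivation k E M} {x f : E} :
    f ∈ derMulField D x ↔ ∃ z : E, D f = z • D x := Iff.rfl

theorem self_mem_derMulField (D : Derivation k E M) (x : E) : x ∈ derMulField D x :=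
  ⟨1, by rw [one_smul]⟩

theorem derivation_pow_char (p : ℕ) [Fact p.Prime] [CharP k p]
    (D : Derivation k E M) (a : E) : D (a ^ p) = 0 := by
  haveI : CharP E p := charP_of_injective_algebraMap (algebraMap k E).injective p
  rw [D.leibniz_pow, ← Nat.cast_smul_eq_nsmul E, CharP.cast_eq_zero E p, zero_smul]

/-- **(θ-ii)**: over a separably generated field, every derivative is a multiple of `D x`. -/
theorem exists_smul_of_isSeparable (p : ℕ) [hp : Fact p.Prime] [CharP k p]
    (D : Derivation k E M) (x : E)
    [Algebra.IsSeparable k⟮x⟯ E] (f : E) : ∃ z : E, D f = z • D x := by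
  haveI : CharP k⟮x⟯ p := charP_of_injective_algebraMap (algebraMap k k⟮x⟯).injective p
  haveI : ExpChar k⟮x⟯ p := ExpChar.prime hp.out
  have h := adjoin_eq_adjoin_pow_expChar_of_isSeparable' k⟮x⟯ E Set.univ p
  have hle : k⟮x⟯ ≤ derMulField D x := by
    rw [adjoin_le_iff]
    rintro y hy
    rw [Set.mem_singleton_iff] at hy
    subst hy
    exact self_mem_derMulField D y
  have hf : f ∈ adjoin k⟮x⟯ ((· ^ p) '' (Set.univ : Set E)) := by
    rw [← h]
    exact subset_adjoin _ _ (Set.mem_univ f)
  have key : f ∈ derMulField D x := by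
    induction hf using IntermediateField.adjoin_induction with
    | mem y hy =>
        obtain ⟨a, -, rfl⟩ := hy
        exact ⟨0, by rw [zero_smul]; exact derivation_pow_char p D a⟩
    | algebraMap c => exact hle c.2
    | add y z _ _ hy hz => exact add_mem hy hz
    | inv y _ hy => exact inv_mem hy
    | mul y z _ _ hy hz => exact mul_mem hy hz
  exact key

end Sep

section Pow

variable {k E M : Type*} [Field k] [Field E] [Algebra k E] [AddCommGroup M] [Module E M]
  [Module k M]

/-- **(θ-iii)**: `D f = 0` only for `p`-th powers. -/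
theorem exists_pow_eq_of_derivation_eq_zero (p : ℕ) [hp : Fact p.Prime] [CharP k p]
    [PerfectField k] (D : Derivation k E M) (x : E)
    [Algebra.IsSeparable k⟮x⟯ E] (hx : D x ≠ 0) {f : E} (hf : D f = 0) :
    ∃ s : E, f = s ^ p := by
  classical
  haveI : CharP E p := charP_of_injective_algebraMap (algebraMap k E).injective p
  haveI : CharP k⟮x⟯ p := charP_of_injective_algebraMap (algebraMap k k⟮x⟯).injective p
  haveI : ExpChar k⟮x⟯ p := ExpChar.prime hp.out
  let φ : E →+* E := frobenius E p
  let Ep : Subfield E := φ.fieldRange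
  have hpow : ∀ a : E, a ^ p ∈ Ep := fun a => ⟨a, rfl⟩
  haveI : CharP Ep p :=
    (RingHom.charP_iff (algebraMap Ep E) (algebraMap Ep E).injective p).mpr inferInstance
  -- `D` kills `Ep`
  have hDEp : ∀ c : Ep, D (c : E) = 0 := by
    rintro ⟨c, a, rfl⟩
    exact derivation_pow_char p D a
  -- Step B: everything lies in `Ep(x)`
  let W : IntermediateField Ep E := IntermediateField.adjoin Ep {x}
  have hxW : x ∈ W := IntermediateField.mem_adjoin_simple_self Ep x
  have hEpW : ∀ a : E, a ∈ Ep → a ∈ W := fun a ha => W.algebraMap_mem ⟨a, ha⟩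
  have hkW : ∀ c : k, algebraMap k E c ∈ W := by
    intro c
    obtain ⟨c', hc'⟩ := surjective_frobenius k p c
    refine hEpW _ ⟨algebraMap k E c', ?_⟩
    show (algebraMap k E c') ^ p = _
    rw [← map_pow, ← hc']
    rfl
  have hkxW : ∀ c : E, c ∈ k⟮x⟯ → c ∈ W := by
    intro c hc
    induction hc using IntermediateField.adjoin_induction with
    | mem y hy =>
        rw [Set.mem_singleton_iff] at hy
        subst hy
        exact hxW
    | algebraMap c => exact hkW c
    | add y z _ _ hy hz => exact add_mem hy hz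
    | inv y _ hy => exact inv_mem hy
    | mul y z _ _ hy hz => exact mul_mem hy hz
  have hall : ∀ g : E, g ∈ W := by
    intro g
    have h := adjoin_eq_adjoin_pow_expChar_of_isSeparable' k⟮x⟯ E Set.univ p
    have hg : g ∈ adjoin k⟮x⟯ ((· ^ p) '' (Set.univ : Set E)) := by
      rw [← h]
      exact subset_adjoin _ _ (Set.mem_univ g)
    induction hg using IntermediateField.adjoin_induction with
    | mem y hy =>
        obtain ⟨a, -, rfl⟩ := hy
        exact hEpW _ (hpow a)
    | algebraMap c => exact hkxW _ c.2
    | add y z _ _ hy hz => exact add_mem hy hz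
    | inv y _ hy => exact inv_mem hy
    | mul y z _ _ hy hz => exact mul_mem hy hz
  -- Step A: `x` is integral over `Ep`, of degree `≤ p`
  let c₀ : Ep := ⟨x ^ p, hpow x⟩
  have hroot : aeval x (X ^ p - C c₀ : Ep[X]) = 0 := by
    rw [map_sub, map_pow, aeval_X, aeval_C]
    exact sub_self _
  have hmonic : (X ^ p - C c₀ : Ep[X]).Monic := monic_X_pow_sub_C c₀ hp.out.ne_zero
  have hint : IsIntegral Ep x := ⟨_, hmonic, hroot⟩
  have hdeg : (minpoly Ep x).natDegree ≤ p := by
    have hdvd := minpoly.dvd Ep x hroot
    have := natDegree_le_of_dvd hdvd hmonic.ne_zero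
    rwa [natDegree_X_pow_sub_C] at this
  -- Step C: a polynomial representation of small degree
  have hfW : f ∈ W.toSubalgebra := hall f
  rw [IntermediateField.adjoin_simple_toSubalgebra_of_isAlgebraic hint.isAlgebraic,
    Algebra.adjoin_singleton_eq_range_aeval] at hfW
  obtain ⟨P, hP⟩ := hfW
  have hP' : aeval x P = f := hP
  let P₁ : Ep[X] := P %ₘ minpoly Ep x
  have hP₁ : aeval x P₁ = f := by
    rw [← hP']
    exact aeval_modByMonic_eq_self_of_root (minpoly.aeval Ep x)
  have hdeg₁ : P₁.degree < (minpoly Ep x).degree :=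
    degree_modByMonic_lt P (minpoly.monic hint)
  -- Step D: the derivative
  have hder : ∀ Q : Ep[X], D (aeval x Q) = aeval x (derivative Q) • D x := by
    intro Q
    induction Q using Polynomial.induction_on' with
    | add Q₁ Q₂ h₁ h₂ => rw [map_add, map_add, h₁, h₂, derivative_add, map_add, add_smul]
    | monomial n c =>
        rw [aeval_monomial, derivative_monomial, aeval_monomial, D.leibniz, D.leibniz_pow]
        have h0 : D (algebraMap Ep E c) = 0 := hDEp c
        rw [h0, smul_zero, add_zero, ← Nat.cast_smul_eq_nsmul E, smul_smul, smul_smul, map_mul,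
          map_natCast]
  have h1 : aeval x (derivative P₁) • D x = 0 := by
    rw [← hder, hP₁, hf]
  have h2 : aeval x (derivative P₁) = 0 := (smul_eq_zero.mp h1).resolve_right hx
  have h3 : derivative P₁ = 0 := by
    by_contra hne
    have hle := minpoly.degree_le_of_ne_zero Ep x hne h2
    have hlt : (derivative P₁).degree < (minpoly Ep x).degree :=
      lt_of_le_of_lt (degree_derivative_le) hdeg₁
    exact absurd hle (not_le.mpr hlt)
  have hnat : P₁.natDegree < p := by
    rcases eq_or_ne P₁ 0 with h0 | h0
    · rw [h0, natDegree_zero]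
      exact hp.out.pos
    · have := (natDegree_lt_natDegree_iff h0).mpr hdeg₁
      omega
  have h4 : ∀ n : ℕ, P₁.coeff (n + 1) = 0 := by
    intro n
    by_contra hne
    have hn : n + 1 ≤ P₁.natDegree := le_natDegree_of_ne_zero hne
    have hc : (derivative P₁).coeff n = 0 := by rw [h3, coeff_zero]
    rw [coeff_derivative] at hc
    rcases mul_eq_zero.mp hc with h | h
    · exact hne h
    · have h' : ((n + 1 : ℕ) : Ep) = 0 := by exact_mod_cast h
      rw [CharP.cast_eq_zero_iff Ep p] at h'
      have := Nat.le_of_dvd (Nat.succ_pos n) h'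
      omega
  have h5 : P₁ = C (P₁.coeff 0) := by
    ext n
    rcases n with _ | n
    · simp
    · rw [h4 n, coeff_C_succ]
  obtain ⟨s, hs⟩ : ∃ s : E, φ s = (P₁.coeff 0 : E) := (P₁.coeff 0).2
  refine ⟨s, ?_⟩
  rw [← hP₁, h5, aeval_C]
  exact hs.symm

end Pow

end Fermat.Agent.Ribet.H940
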