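import Fermat.Agent.Ribet.H940.Theta
import Fermat.Agent.S37.H940.QSeries
import Fermat.Agent.S37.Red.H940.Main

/-!
# RIBET wall-p, leaf I3 (helper940): the Gauss lemma for ratios of integral `q`-series

Setting of `S37/H940/QSeries.lean`: `F ⊆ L((q))`, `F_k ⊆ k((q))`, `A ⊆ L` a valuation ring with
residue map `π : A → k`, `V` = fractions of integral `q`-series of `F` (`qData`).

* `gauss_ratio` : if `u ∈ F` and `u · B = N` for INTEGRAL series `B, N ∈ A((q))` (not necessarily in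
  `F`) with `B̄ ≠ 0`, then `u ∈ V` and `ρ(u) · B̄ = N̄`   (needs the value-group hypothesis);
* `link_frac` : for a reduction datum `G` on `(F, F_k)` with the `link` property, `V ⊆ G.O` and
  `G.ρ = ρ` on `V`;
* `mem_V_of_mem_O` : conversely `G.O ⊆ V`.
-/

set_option autoImplicit false
set_option synthInstance.maxHeartbeats 400000
set_option linter.unusedSectionVars false
set_option linter.style.haveILetI false

noncomputable section

namespace Fermat.Agent.Ribet.H940

open AlgebraicCurve ModularCurve HahnSeries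
open Fermat.Agent.S37.H940 Fermat.Agent.S37.Red

universe u

variable {L : Type u} [Field L] (A : ValuationSubring L) {k : Type u} [Field k] (π : A →+* k)
variable (F : IntermediateField L (LaurentSeries L)) (Fk : IntermediateField k (LaurentSeries k))
variable (hsurj : Function.Surjective π) (hker : ∀ a : A, π a = 0 ↔ ¬ IsUnit a)

/-- the constant `c ∈ A` as an integral `q`-series of `F` -/
def constQ (c : A) : intQ A π F Fk := ⟨algebraMap L F (c : L), const_isIntQ A π F Fk c⟩

theorem coeffMap_single_constQ (c : A) :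
    coeffMap A.subtype (HahnSeries.single 0 c) = (((constQ A π F Fk c : intQ A π F Fk) : F) :
      LaurentSeries L) := by
  rw [coeffMap_single]
  show HahnSeries.single 0 (c : L) = algebraMap L (LaurentSeries L) (c : L)
  rw [algebraMap_laurentSeries_eq_single]

theorem coe_redQ_constQ (c : A) :
    ((redQ A π F Fk (constQ A π F Fk c) : Fk) : LaurentSeries k) =
      coeffMap π (HahnSeries.single 0 c) :=
  coe_redQ A π F Fk (constQ A π F Fk c) (coeffMap_single_constQ A π F Fk c)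

theorem coeffMap_single_zero_of_eq_zero {c : A} (hc : π c = 0) :
    coeffMap π (HahnSeries.single 0 c) = 0 := by
  rw [coeffMap_single, hc, HahnSeries.single_eq_zero]

include hker in
/-- **Gauss lemma for ratios**, core form. -/
theorem gauss_ratio_core (hVG : ValueGroupHyp A π F Fk) (u : F) (B N : LaurentSeries A)
    (h : (u : LaurentSeries L) * coeffMap A.subtype B = coeffMap A.subtype N)
    (hB : coeffMap π B ≠ 0) :
    ∃ a b : intQ A π F Fk, redQ A π F Fk b ≠ 0 ∧ u * (b : F) = (a : F) ∧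
      ((redQ A π F Fk a : Fk) : LaurentSeries k) * coeffMap π B =
        ((redQ A π F Fk b : Fk) : LaurentSeries k) * coeffMap π N := by
  rcases eq_or_ne u 0 with rfl | hu
  · refine ⟨0, 1, by rw [map_one]; exact one_ne_zero, by simp, ?_⟩
    have hN : N = 0 := by
      apply coeffMap_subtype_injective A
      rw [← h, map_zero]
      simp
    rw [hN, map_zero, map_zero, mul_zero]
    simp
  obtain ⟨c, hc, y₁, y₂, h₁, h₂, hfy⟩ := hVG u hu
  set Y₁ := series A π F Fk y₁ with hY₁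
  set Y₂ := series A π F Fk y₂ with hY₂
  have e₁ : coeffMap A.subtype Y₁ = ((y₁ : F) : LaurentSeries L) := coeffMap_series A π F Fk y₁
  have e₂ : coeffMap A.subtype Y₂ = ((y₂ : F) : LaurentSeries L) := coeffMap_series A π F Fk y₂
  have r₁ : ((redQ A π F Fk y₁ : Fk) : LaurentSeries k) = coeffMap π Y₁ :=
    coe_redQ A π F Fk y₁ e₁
  have r₂ : ((redQ A π F Fk y₂ : Fk) : LaurentSeries k) = coeffMap π Y₂ :=
    coe_redQ A π F Fk y₂ e₂
  have hY₁0 : coeffMap π Y₁ ≠ 0 := by
    rw [← r₁]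
    intro h0
    exact h₁ (Subtype.ext h0)
  -- the relation in `L((q))`
  have hrel : (u : LaurentSeries L) * ((y₂ : F) : LaurentSeries L) =
      algebraMap L (LaurentSeries L) c * ((y₁ : F) : LaurentSeries L) :=
    congrArg (fun z : F => (z : LaurentSeries L)) hfy
  by_cases hcA : c ∈ A
  · -- `c ∈ A`
    refine ⟨constQ A π F Fk ⟨c, hcA⟩ * y₁, y₂, h₂, hfy, ?_⟩
    have hser : HahnSeries.single 0 (⟨c, hcA⟩ : A) * Y₁ * B = Y₂ * N := by
      apply coeffMap_subtype_injective A
      rw [map_mul, map_mul, map_mul, e₁, e₂, ← h, coeffMap_single]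
      show HahnSeries.single 0 c * ((y₁ : F) : LaurentSeries L) * _ = _
      rw [← algebraMap_laurentSeries_eq_single, ← hrel]
      ring
    have hra : ((redQ A π F Fk (constQ A π F Fk ⟨c, hcA⟩ * y₁) : Fk) : LaurentSeries k) =
        coeffMap π (HahnSeries.single 0 (⟨c, hcA⟩ : A) * Y₁) := by
      rw [map_mul, map_mul]
      show ((redQ A π F Fk (constQ A π F Fk ⟨c, hcA⟩) : Fk) : LaurentSeries k) *
        ((redQ A π F Fk y₁ : Fk) : LaurentSeries k) = _
      rw [coe_redQ_constQ, r₁]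
    rw [hra, r₂, ← map_mul, ← map_mul, hser]
  · -- `c ∉ A`: impossible
    exfalso
    have hinv : c⁻¹ ∈ A := (A.mem_or_inv_mem c).resolve_left hcA
    have hnu : ¬ IsUnit (⟨c⁻¹, hinv⟩ : A) := by
      intro hun
      obtain ⟨b, hb⟩ := isUnit_iff_exists_inv.mp hun
      have hb' : c⁻¹ * (b : L) = 1 := by
        have := congrArg (fun x : A => (x : L)) hb
        simpa using this
      apply hcA
      have : (b : L) = c := by
        field_simp at hb'
        exact hb'
      rw [← this]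
      exact b.2
    have hπ : π ⟨c⁻¹, hinv⟩ = 0 := (hker _).mpr hnu
    have hser : Y₁ * B = HahnSeries.single 0 (⟨c⁻¹, hinv⟩ : A) * Y₂ * N := by
      apply coeffMap_subtype_injective A
      rw [map_mul, map_mul, map_mul, e₁, e₂, ← h, coeffMap_single]
      show _ = HahnSeries.single 0 c⁻¹ * ((y₂ : F) : LaurentSeries L) * _
      rw [← algebraMap_laurentSeries_eq_single]
      have hc' : algebraMap L (LaurentSeries L) c ≠ 0 := by
        rwa [Ne, map_eq_zero_iff _ (algebraMap L (LaurentSeries L)).injective]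
      rw [map_inv₀]
      have : ((y₁ : F) : LaurentSeries L) =
          (algebraMap L (LaurentSeries L) c)⁻¹ * ((u : LaurentSeries L) *
            ((y₂ : F) : LaurentSeries L)) := by
        rw [hrel, ← mul_assoc, inv_mul_cancel₀ hc', one_mul]
      rw [this]
      ring
    have hred := congrArg (coeffMap π) hser
    rw [map_mul, map_mul, map_mul, coeffMap_single_zero_of_eq_zero A π hπ, zero_mul,
      zero_mul] at hred
    exact mul_ne_zero hY₁0 hB hred

include hker in
/-- **Gauss lemma for ratios.** -/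
theorem gauss_ratio (hVG : ValueGroupHyp A π F Fk) (u : F) (B N : LaurentSeries A)
    (h : (u : LaurentSeries L) * coeffMap A.subtype B = coeffMap A.subtype N)
    (hB : coeffMap π B ≠ 0) :
    ∃ hu : u ∈ (qData A π F Fk hsurj hker).V,
      (((qData A π F Fk hsurj hker).ρ ⟨u, hu⟩ : Fk) : LaurentSeries k) * coeffMap π B =
        coeffMap π N := by
  obtain ⟨a, b, hb, hab, hrel⟩ := gauss_ratio_core A π F Fk hker hVG u B N h hB
  have hu : u ∈ (qData A π F Fk hsurj hker).V := ⟨a, b, hb, hab⟩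
  refine ⟨hu, ?_⟩
  have hρ := (qData A π F Fk hsurj hker).ρ_apply ⟨u, hu⟩ (a := a) (b := b) hb hab
  have hb0 : ((redQ A π F Fk b : Fk) : LaurentSeries k) ≠ 0 := fun h0 => hb (Subtype.ext h0)
  have hρ' : (((qData A π F Fk hsurj hker).ρ ⟨u, hu⟩ : Fk) : LaurentSeries k) =
      ((redQ A π F Fk a : Fk) : LaurentSeries k) / ((redQ A π F Fk b : Fk) : LaurentSeries k) := by
    rw [hρ]
    rfl
  rw [hρ', div_mul_eq_mul_div, hrel, mul_comm, mul_div_assoc, div_self hb0, mul_one]

section Link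

variable {A π F Fk}
variable (G : Datum A π F Fk)

/-- the `link` property of a reduction datum on fields of `q`-series
(= `Red.H759.Link` in the modular case) -/
def LinkQ : Prop :=
  ∀ (y : LaurentSeries A) (hy : coeffMap A.subtype y ∈ F) (hyk : coeffMap π y ∈ Fk),
    coeffMap π y ≠ 0 →
    ∃ h : (⟨coeffMap A.subtype y, hy⟩ : F) ∈ G.O,
      G.ρ ⟨⟨coeffMap A.subtype y, hy⟩, h⟩ = ⟨coeffMap π y, hyk⟩

variable {G}

theorem link_intQ_of_ne (hlink : LinkQ G) (a : intQ A π F Fk) (ha : redQ A π F Fk a ≠ 0) :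
    ∃ h : (a : F) ∈ G.O, G.ρ ⟨a, h⟩ = redQ A π F Fk a := by
  have e : coeffMap A.subtype (series A π F Fk a) = ((a : F) : LaurentSeries L) :=
    coeffMap_series A π F Fk a
  have hy : coeffMap A.subtype (series A π F Fk a) ∈ F := by
    rw [e]
    exact (a : F).2
  have hyk : coeffMap π (series A π F Fk a) ∈ Fk := coeffMap_series_mem A π F Fk a
  have hne : coeffMap π (series A π F Fk a) ≠ 0 := by
    intro h0
    apply ha
    apply Subtype.ext
    exact h0
  obtain ⟨h, hρ⟩ := hlink _ hy hyk hne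
  have key : ∀ (f : F), f = ⟨coeffMap A.subtype (series A π F Fk a), hy⟩ →
      ∃ h' : f ∈ G.O, G.ρ ⟨f, h'⟩ = ⟨coeffMap π (series A π F Fk a), hyk⟩ := by
    rintro f rfl
    exact ⟨h, hρ⟩
  exact key (a : F) (Subtype.ext e.symm)

theorem link_intQ (hlink : LinkQ G) (a : intQ A π F Fk) :
    ∃ h : (a : F) ∈ G.O, G.ρ ⟨a, h⟩ = redQ A π F Fk a := by
  by_cases ha : redQ A π F Fk a = 0
  · have h1 : redQ A π F Fk (a + 1) ≠ 0 := by
      rw [map_add, ha, zero_add, map_one]
      exact one_ne_zero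
    obtain ⟨h, hρ⟩ := link_intQ_of_ne hlink (a + 1) h1
    have hmem : (a : F) ∈ G.O := by
      have h2 : ((a : F) + 1) - 1 ∈ G.O := sub_mem h (one_mem _)
      rwa [add_sub_cancel_right] at h2
    refine ⟨hmem, ?_⟩
    have h3 : (⟨(a : F), hmem⟩ : G.O) = ⟨((a + 1 : intQ A π F Fk) : F), h⟩ - 1 := by
      apply Subtype.ext
      show (a : F) = ((a : F) + 1) - 1
      rw [add_sub_cancel_right]
    rw [h3, map_sub, hρ, map_one, map_add, map_one, add_sub_cancel_right]
  · exact link_intQ_of_ne hlink a ha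

/-- **`V ⊆ G.O`, with the same reduction.** -/
theorem link_frac (hlink : LinkQ G) (u : F) (hu : u ∈ (qData A π F Fk hsurj hker).V) :
    ∃ h : u ∈ G.O, G.ρ ⟨u, h⟩ = (qData A π F Fk hsurj hker).ρ ⟨u, hu⟩ := by
  obtain ⟨a, b, hb, hab⟩ := hu
  obtain ⟨ha', hρa⟩ := link_intQ hlink a
  obtain ⟨hb', hρb⟩ := link_intQ hlink b
  have hb0 : G.ρ ⟨(b : F), hb'⟩ ≠ 0 := by
    rw [hρb]
    exact hb
  have hbinv : ((b : F))⁻¹ ∈ G.O :=
    (Fermat.Agent.S37.Red.H940.ctx G).inv_mem ⟨(b : F), hb'⟩ hb0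
  have hbne : (b : F) ≠ 0 := by
    intro h0
    apply hb0
    have : (⟨(b : F), hb'⟩ : G.O) = 0 := Subtype.ext h0
    rw [this, map_zero]
  have hu_eq : u = (a : F) * ((b : F))⁻¹ := by
    rw [← hab, mul_assoc, mul_inv_cancel₀ hbne, mul_one]
  have hmem : u ∈ G.O := by
    rw [hu_eq]
    exact mul_mem ha' hbinv
  refine ⟨hmem, ?_⟩
  have hmul : (⟨u, hmem⟩ : G.O) * ⟨(b : F), hb'⟩ = ⟨(a : F), ha'⟩ := Subtype.ext hab
  have h1 := congrArg G.ρ hmul
  rw [map_mul, hρa, hρb] at h1
  rw [(qData A π F Fk hsurj hker).ρ_apply ⟨u, ⟨a, b, hb, hab⟩⟩ (a := a) (b := b) hb hab]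
  exact eq_div_of_mul_eq hb h1

include hker hsurj in
/-- **`G.O ⊆ V`.** -/
theorem mem_V_of_mem_O (hVG : ValueGroupHyp A π F Fk) (hlink : LinkQ G) {t : F}
    (ht : t ∈ G.O) : t ∈ (qData A π F Fk hsurj hker).V := by
  rcases eq_or_ne t 0 with rfl | ht0
  · exact Subring.zero_mem _
  obtain ⟨c, hc, y₁, y₂, h₁, h₂, hfy⟩ := hVG t ht0
  by_cases hcA : c ∈ A
  · exact ⟨constQ A π F Fk ⟨c, hcA⟩ * y₁, y₂, h₂, hfy⟩
  · exfalso
    have hinv : c⁻¹ ∈ A := (A.mem_or_inv_mem c).resolve_left hcA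
    have hnu : ¬ IsUnit (⟨c⁻¹, hinv⟩ : A) := by
      intro hun
      obtain ⟨b, hb⟩ := isUnit_iff_exists_inv.mp hun
      have hb' : c⁻¹ * (b : L) = 1 := by
        have := congrArg (fun x : A => (x : L)) hb
        simpa using this
      apply hcA
      have : (b : L) = c := by
        field_simp at hb'
        exact hb'
      rw [← this]
      exact b.2
    have hπ : π ⟨c⁻¹, hinv⟩ = 0 := (hker _).mpr hnu
    have hy₁ : (y₁ : F) ≠ 0 := (qData A π F Fk hsurj hker).coe_ne_zero h₁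
    have hc' : algebraMap L F c ≠ 0 := by
      rwa [Ne, map_eq_zero_iff _ (algebraMap L F).injective]
    have hrel : t⁻¹ * (y₁ : F) = ((constQ A π F Fk ⟨c⁻¹, hinv⟩ * y₂ : intQ A π F Fk) : F) := by
      show t⁻¹ * (y₁ : F) = algebraMap L F c⁻¹ * (y₂ : F)
      rw [map_inv₀, inv_mul_eq_iff_eq_mul₀ ht0, ← mul_assoc, mul_comm t, mul_assoc, hfy,
        ← mul_assoc, inv_mul_cancel₀ hc', one_mul]
    have hV : t⁻¹ ∈ (qData A π F Fk hsurj hker).V :=
      ⟨constQ A π F Fk ⟨c⁻¹, hinv⟩ * y₂, y₁, h₁, hrel⟩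
    obtain ⟨hO, hρ⟩ := link_frac hsurj hker hlink t⁻¹ hV
    have hzero : (qData A π F Fk hsurj hker).ρ ⟨t⁻¹, hV⟩ = 0 := by
      rw [(qData A π F Fk hsurj hker).ρ_apply ⟨t⁻¹, hV⟩
        (a := constQ A π F Fk ⟨c⁻¹, hinv⟩ * y₂) (b := y₁) h₁ hrel]
      have : redQ A π F Fk (constQ A π F Fk ⟨c⁻¹, hinv⟩ * y₂) = 0 := by
        rw [map_mul]
        have h0 : redQ A π F Fk (constQ A π F Fk ⟨c⁻¹, hinv⟩) = 0 := by
          apply Subtype.ext
          rw [coe_redQ_constQ, coeffMap_single_zero_of_eq_zero A π hπ]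
          rfl
        rw [h0, zero_mul]
      show redQ A π F Fk (constQ A π F Fk ⟨c⁻¹, hinv⟩ * y₂) / redQ A π F Fk y₁ = 0
      rw [this, zero_div]
    have hmul : (⟨t, ht⟩ : G.O) * ⟨t⁻¹, hO⟩ = 1 := Subtype.ext (mul_inv_cancel₀ ht0)
    have h1 := congrArg G.ρ hmul
    rw [map_mul, hρ, hzero, mul_zero, map_one] at h1
    exact zero_ne_one h1

end Link

end Fermat.Agent.Ribet.H940
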