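import Fermat.Agent.Ribet.H940.GaussTheta
import Fermat.Agent.Lib.RR.Ord

/-!
# RIBET wall-p, leaf I3 / INC-RED (helper940): the core

Setting: `F ⊆ L((q))`, `F_k ⊆ k((q))`, `A ⊆ L` a valuation ring with residue map `π`, a reduction
datum `G` on `(F, F_k)` with the `link` property, the value-group hypothesis, a place reduction
map `r` with the sum formula (`IsRed`).

`holo_red` : if `G₀ ∈ A((q))` is such that `G₀ dq/q` is holomorphic on `F` (for every place `P`
and every uniformiser `t` at `P`: `G₀ = u · θt`, `u ∈ F` regular at `P`), then `Ḡ₀ dq/q` is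
holomorphic on `F_k`, PROVIDED

* `LiftProp G r` : every uniformiser `t̄` at a place `Q` of `F_k` has a lift `t ∈ G.O` which is,
  up to an additive constant, a uniformiser at every `P` over `Q`;
* `θ t̄ ≠ 0` for uniformisers `t̄` of `F_k`.
-/

set_option autoImplicit false
set_option synthInstance.maxHeartbeats 400000
set_option linter.unusedSectionVars false
set_option linter.style.haveILetI false

noncomputable section

namespace Fermat.Agent.Ribet.H940

open AlgebraicCurve ModularCurve HahnSeries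
open Fermat.Agent.S37.H940 Fermat.Agent.S37.Red

universe u

section Abstract

variable {K k F Fk : Type u} [Field K] [Field k] [Field F] [Field Fk]
  [Algebra K F] [Algebra k Fk] {A : ValuationSubring K} {π : A →+* k}

/-- **LIFT**: every uniformiser `t̄` at a place `Q` of `F_k` has a lift `t ∈ O` which is, up to an
additive constant, a uniformiser at every place `P` of `F` over `Q`. -/
def LiftProp (G : Datum A π F Fk) (r : Place K F → Place k Fk) : Prop :=
  ∀ (Q : Place k Fk) (tb : Fk), Q.ord tb = 1 →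
    ∃ (t : F) (ht : t ∈ G.O), G.ρ ⟨t, ht⟩ = tb ∧
      ∀ P : Place K F, r P = Q → ∃ c : K, P.ord (t - algebraMap K F c) = 1

/-- the sum formula at a single point, as an inequality: a function of `O` regular at all places
over `Q` has regular reduction at `Q`. -/
theorem ord_ρ_nonneg_of_isRed (G : Datum A π F Fk) (r : Place K F → Place k Fk)
    (hred : IsRed G r)
    (hdiv : ∀ y : F, y ≠ 0 → ∃ D : Divisor K F, ∀ P, D P = P.ord y)
    (y : F) (hy : y ∈ G.O) (Q : Place k Fk) (hreg : ∀ P, r P = Q → 0 ≤ P.ord y) :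
    0 ≤ Q.ord (G.ρ ⟨y, hy⟩) := by
  classical
  by_cases h0 : G.ρ ⟨y, hy⟩ = 0
  · rw [h0, Place.ord_zero]
  have hy0 : y ≠ 0 := by
    rintro rfl
    apply h0
    have : (⟨0, hy⟩ : G.O) = 0 := rfl
    rw [this, map_zero]
  obtain ⟨D, hD⟩ := hdiv y hy0
  rw [← hred.2 y hy h0 D hD Q, mapDomain_apply_eq_sum]
  refine Finset.sum_nonneg fun P _ => ?_
  split_ifs with h
  · rw [hD]
    exact hreg P h
  · exact le_rfl

/-- surjectivity of `r` at the points where some reduction has nonzero order -/
theorem exists_over_of_isRed (G : Datum A π F Fk) (r : Place K F → Place k Fk)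
    (hred : IsRed G r)
    (hdiv : ∀ y : F, y ≠ 0 → ∃ D : Divisor K F, ∀ P, D P = P.ord y)
    (y : F) (hy : y ∈ G.O) (Q : Place k Fk) (hQ : Q.ord (G.ρ ⟨y, hy⟩) ≠ 0) :
    ∃ P, r P = Q := by
  classical
  have h0 : G.ρ ⟨y, hy⟩ ≠ 0 := by
    intro h
    rw [h, Place.ord_zero] at hQ
    exact hQ rfl
  have hy0 : y ≠ 0 := by
    rintro rfl
    apply h0
    have : (⟨0, hy⟩ : G.O) = 0 := rfl
    rw [this, map_zero]
  obtain ⟨D, hD⟩ := hdiv y hy0
  have hsum := hred.2 y hy h0 D hD Q
  rw [mapDomain_apply_eq_sum] at hsum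
  by_contra hne
  rw [not_exists] at hne
  apply hQ
  rw [← hsum]
  exact Finset.sum_eq_zero fun P _ => if_neg (hne P)

end Abstract

section QSeries

variable {L : Type u} [Field L] {A : ValuationSubring L} {k : Type u} [Field k] {π : A →+* k}
variable {F : IntermediateField L (LaurentSeries L)} {Fk : IntermediateField k (LaurentSeries k)}
variable (hsurj : Function.Surjective π) (hker : ∀ a : A, π a = 0 ↔ ¬ IsUnit a)

/-- the numerator of `θ(a/b) = (θa · b - a · θb) / b²` -/
def thetaNum {R : Type*} [CommRing R] (a b : LaurentSeries R) : LaurentSeries R :=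
  thetaL a * b - a * thetaL b

theorem coeffMap_thetaNum {R S : Type*} [CommRing R] [CommRing S] (φ : R →+* S)
    (a b : LaurentSeries R) :
    coeffMap φ (thetaNum a b) = thetaNum (coeffMap φ a) (coeffMap φ b) := by
  unfold thetaNum
  rw [map_sub, map_mul, map_mul, thetaL_coeffMap, thetaL_coeffMap]

/-- `θt · b² = θa · b - a · θb` if `t · b = a` -/
theorem thetaNum_eq {R : Type*} [CommRing R] {t a b : LaurentSeries R} (h : t * b = a) :
    thetaNum a b = thetaL t * b ^ 2 := by
  unfold thetaNum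
  rw [← h, thetaL_mul]
  ring

include hsurj hker in
/-- **INC-RED, core.** -/
theorem holo_red (G : Datum A π F Fk) (r : Place L F → Place k Fk)
    (hVG : ValueGroupHyp A π F Fk) (hlink : LinkQ G) (hred : IsRed G r) (hlift : LiftProp G r)
    (hdiv : ∀ y : F, y ≠ 0 → ∃ D : Divisor L F, ∀ P, D P = P.ord y)
    (hθ : ∀ (Q : Place k Fk) (tb : Fk), Q.ord tb = 1 → thetaL (tb : LaurentSeries k) ≠ 0)
    (G₀ : LaurentSeries A)
    (hholo : ∀ (P : Place L F) (t : F), P.ord t = 1 →
      ∃ u : F, u ∈ P.toValuationSubring ∧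
        coeffMap A.subtype G₀ = (u : LaurentSeries L) * thetaL (t : LaurentSeries L))
    (Q : Place k Fk) (tb : Fk) (hQ : Q.ord tb = 1) :
    ∃ ub : Fk, ub ∈ Q.toValuationSubring ∧
      coeffMap π G₀ = (ub : LaurentSeries k) * thetaL (tb : LaurentSeries k) := by
  classical
  -- the lift
  obtain ⟨t, ht, hρt, hunif⟩ := hlift Q tb hQ
  -- `t = a / b`
  have htV := mem_V_of_mem_O hsurj hker hVG hlink ht
  obtain ⟨a, b, hb, hab⟩ := htV
  obtain ⟨ht', hρt'⟩ := link_frac hsurj hker hlink t ⟨a, b, hb, hab⟩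
  have hρtV := (qData A π F Fk hsurj hker).ρ_apply ⟨t, ⟨a, b, hb, hab⟩⟩ (a := a) (b := b) hb hab
  have htb : tb = redQ A π F Fk a / redQ A π F Fk b := by
    rw [← hρt, hρt', hρtV]
    rfl
  set Ya := series A π F Fk a with hYa
  set Yb := series A π F Fk b with hYb
  have ea : coeffMap A.subtype Ya = ((a : F) : LaurentSeries L) := coeffMap_series A π F Fk a
  have eb : coeffMap A.subtype Yb = ((b : F) : LaurentSeries L) := coeffMap_series A π F Fk b
  have ra : ((redQ A π F Fk a : Fk) : LaurentSeries k) = coeffMap π Ya := coe_redQ A π F Fk a ea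
  have rb : ((redQ A π F Fk b : Fk) : LaurentSeries k) = coeffMap π Yb := coe_redQ A π F Fk b eb
  have hbk0 : coeffMap π Yb ≠ 0 := by
    rw [← rb]
    exact fun h0 => hb (Subtype.ext h0)
  -- the relations `t b = a`, `t̄ b̄ = ā`
  have hrelL : (t : LaurentSeries L) * coeffMap A.subtype Yb = coeffMap A.subtype Ya := by
    rw [ea, eb]
    exact congrArg (fun z : F => (z : LaurentSeries L)) hab
  have hrelk : (tb : LaurentSeries k) * coeffMap π Yb = coeffMap π Ya := by
    rw [← ra, ← rb, htb]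
    show ((redQ A π F Fk a : Fk) : LaurentSeries k) / ((redQ A π F Fk b : Fk) : LaurentSeries k) *
      ((redQ A π F Fk b : Fk) : LaurentSeries k) = _
    rw [div_mul_cancel₀]
    rw [rb]
    exact hbk0
  -- the integral series `B = θa b - a θb`
  set B : LaurentSeries A := thetaNum Ya Yb with hB
  have hBL : coeffMap A.subtype B = thetaL (t : LaurentSeries L) * coeffMap A.subtype Yb ^ 2 := by
    rw [hB, coeffMap_thetaNum, thetaNum_eq hrelL]
  have hBk : coeffMap π B = thetaL (tb : LaurentSeries k) * coeffMap π Yb ^ 2 := by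
    rw [hB, coeffMap_thetaNum, thetaNum_eq hrelk]
  have hBk0 : coeffMap π B ≠ 0 := by
    rw [hBk]
    exact mul_ne_zero (hθ Q tb hQ) (pow_ne_zero 2 hbk0)
  have hθt : thetaL (t : LaurentSeries L) ≠ 0 := by
    intro h0
    apply hBk0
    have : B = 0 := by
      apply coeffMap_subtype_injective A
      rw [hBL, h0, zero_mul, map_zero]
    rw [this, map_zero]
  -- a place over `Q`
  have hQ' : Q.ord (G.ρ ⟨t, ht⟩) ≠ 0 := by
    rw [hρt, hQ]
    exact one_ne_zero
  obtain ⟨P₀, hP₀⟩ := exists_over_of_isRed G r hred hdiv t ht Q hQ'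
  -- the function `u = G₀ / θt`
  have hthc : ∀ c : L, thetaL (((t - algebraMap L F c : F)) : LaurentSeries L) =
      thetaL (t : LaurentSeries L) := by
    intro c
    show thetaL ((t : LaurentSeries L) - algebraMap L (LaurentSeries L) c) = _
    rw [thetaL_sub, thetaL_algebraMap, sub_zero]
  obtain ⟨c₀, hc₀⟩ := hunif P₀ hP₀
  obtain ⟨u, -, hu⟩ := hholo P₀ _ hc₀
  rw [hthc] at hu
  have hureg : ∀ P, r P = Q → 0 ≤ P.ord u := by
    intro P hP
    obtain ⟨c, hc⟩ := hunif P hP
    obtain ⟨u', hu'mem, hu'⟩ := hholo P _ hc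
    rw [hthc, hu] at hu'
    have : u = u' := by
      apply Subtype.ext
      exact mul_right_cancel₀ hθt hu'
    rw [this]
    exact Fermat.Agent.Lib.RR.ord_nonneg_of_mem P hu'mem
  -- the Gauss lemma
  have hGauss : (u : LaurentSeries L) * coeffMap A.subtype B = coeffMap A.subtype (G₀ * Yb ^ 2) := by
    rw [hBL, map_mul, map_pow, hu]
    ring
  obtain ⟨huV, hρu⟩ := gauss_ratio A π F Fk hsurj hker hVG u B (G₀ * Yb ^ 2) hGauss hBk0
  obtain ⟨huO, hρu'⟩ := link_frac hsurj hker hlink u huV
  refine ⟨G.ρ ⟨u, huO⟩, ?_, ?_⟩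
  · exact Fermat.Agent.Lib.RR.mem_of_ord_nonneg Q
      (ord_ρ_nonneg_of_isRed G r hred hdiv u huO Q hureg)
  · rw [hρu']
    rw [hBk, map_mul, map_pow] at hρu
    have h2 : coeffMap π Yb ^ 2 ≠ 0 := pow_ne_zero 2 hbk0
    apply mul_right_cancel₀ h2
    rw [← hρu]
    ring

end QSeries

end Fermat.Agent.Ribet.H940
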