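import Fermat.Agent.Ribet.H940.Theta
import Fermat.Agent.Ribet.H940.CharP
import Fermat.Agent.Lib.RR.Ord

/-!
# RIBET wall-p, leaf I3 (helper940): `θ` as a derivation of a field of `q`-series

`F ⊆ k((q))` an intermediate field.

* `thetaDer F : Derivation k F k((q))`;
* `thetaL_eq_smul` : if `F / k(x)` is separable (characteristic `p`), `θ f = z · θ x`, `z ∈ F`;
* `thetaL_ne_zero_of_sep` : if moreover `θ` does not vanish on `F`, then `θ x ≠ 0`;
* `thetaL_ne_zero_of_ord_eq_one` : and `θ t ≠ 0` for every uniformiser `t` at a place of `F`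
  (`k` perfect).
-/

set_option autoImplicit false
set_option synthInstance.maxHeartbeats 400000
set_option linter.unusedSectionVars false
set_option linter.style.haveILetI false

noncomputable section

namespace Fermat.Agent.Ribet.H940

open HahnSeries ModularCurve AlgebraicCurve IntermediateField

variable {k : Type*} [Field k] (F : IntermediateField k (LaurentSeries k))

theorem coe_smul_coeff (c : k) (f : F) (n : ℤ) :
    ((c • f : F) : LaurentSeries k).coeff n = c * (f : LaurentSeries k).coeff n := by
  have h1 : ((c • f : F) : LaurentSeries k) =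
      algebraMap k (LaurentSeries k) c * (f : LaurentSeries k) := by
    rw [Algebra.smul_def]
    rfl
  rw [h1, algebraMap_laurentSeries_eq_single, ← HahnSeries.C_apply, HahnSeries.C_mul_eq_smul,
    HahnSeries.coeff_smul, smul_eq_mul]

/-- `θ = q d/dq` restricted to a field of `q`-series, as a derivation. -/
def thetaDer : Derivation k F (LaurentSeries k) where
  toFun f := thetaL (f : LaurentSeries k)
  map_add' f g := thetaL_add _ _
  map_smul' c f := by
    show thetaL ((c • f : F) : LaurentSeries k) = c • thetaL (f : LaurentSeries k)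
    ext n
    rw [thetaL_coeff, coe_smul_coeff, HahnSeries.coeff_smul, thetaL_coeff, smul_eq_mul]
    ring
  map_one_eq_zero' := by
    show thetaL ((1 : F) : LaurentSeries k) = 0
    exact thetaL_one
  leibniz' f g := by
    show thetaL ((f * g : F) : LaurentSeries k) =
      f • thetaL (g : LaurentSeries k) + g • thetaL (f : LaurentSeries k)
    rw [Algebra.smul_def, Algebra.smul_def]
    show thetaL ((f : LaurentSeries k) * (g : LaurentSeries k)) =
      (f : LaurentSeries k) * thetaL (g : LaurentSeries k) +
        (g : LaurentSeries k) * thetaL (f : LaurentSeries k)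
    rw [thetaL_mul]
    ring

@[simp] theorem thetaDer_apply (f : F) : thetaDer F f = thetaL (f : LaurentSeries k) := rfl

section CharP

/-- **(θ-ii)** on `q`-series. -/
theorem thetaL_eq_smul (p : ℕ) [hp : Fact p.Prime] [CharP k p] (x : F) [Algebra.IsSeparable k⟮x⟯ F] (f : F) :
    ∃ z : F, thetaL (f : LaurentSeries k) = (z : LaurentSeries k) * thetaL (x : LaurentSeries k) := by
  obtain ⟨z, hz⟩ := exists_smul_of_isSeparable p (thetaDer F) x f
  exact ⟨z, hz⟩

/-- if `θ` does not vanish identically on `F`, it does not vanish at a separating element. -/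
theorem thetaL_ne_zero_of_sep (p : ℕ) [hp : Fact p.Prime] [CharP k p] (x : F) [Algebra.IsSeparable k⟮x⟯ F] {j : F}
    (hj : thetaL (j : LaurentSeries k) ≠ 0) : thetaL (x : LaurentSeries k) ≠ 0 := by
  intro h0
  obtain ⟨z, hz⟩ := thetaL_eq_smul F p x j
  rw [h0, mul_zero] at hz
  exact hj hz

/-- **(θ-iii)** on `q`-series: `θ t ≠ 0` for uniformisers. -/
theorem thetaL_ne_zero_of_ord_eq_one (p : ℕ) [hp : Fact p.Prime] [CharP k p]
    [PerfectField k] (x : F) [Algebra.IsSeparable k⟮x⟯ F]
    {j : F} (hj : thetaL (j : LaurentSeries k) ≠ 0) (Q : Place k F) {t : F} (ht : Q.ord t = 1) :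
    thetaL (t : LaurentSeries k) ≠ 0 := by
  intro h0
  have hx : thetaDer F x ≠ 0 := thetaL_ne_zero_of_sep F p x hj
  obtain ⟨s, hs⟩ := exists_pow_eq_of_derivation_eq_zero p (thetaDer F) x hx (f := t) h0
  rw [hs, Fermat.Agent.Lib.RR.ord_pow] at ht
  have hdvd : (p : ℤ) ∣ 1 := ⟨Q.ord s, ht.symm⟩
  have := Int.eq_one_of_dvd_one (by positivity) hdvd
  have hp1 : p = 1 := by exact_mod_cast this
  exact hp.out.one_lt.ne' hp1

end CharP

end Fermat.Agent.Ribet.H940
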