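import Fermat.Agent.Ribet.H940.Lift
import Fermat.Agent.Ribet.H940.ThetaDer
import Fermat.Agent.Ribet.H764.I3Spec
import Fermat.Agent.S37.H28.DatumM
import Fermat.Agent.S37.Red.H940.MainStatement
import Fermat.Agent.S18.H602.BaseChange
import Fermat.Agent.Lib.RR.H864.FF1Modular

/-!
# RIBET wall-p, leaf I3 / INC-RED (helper940): the modular instance

`incRed` : for a prime `p ∤ M` at a good level (`p ≥ 5`, or `p = 3`, `2 ∣ M`, or `p = 2`, `3 ∣ M`)
and a valuation subring `A ⊆ ℚ̄` over `p`: if `c : ℕ → ℤ` and `(∑ c_n qⁿ) dq/q` is a holomorphic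
differential of `X₀(M)` over `ℚ̄` (`I3.IsHoloSeries ℚ̄ M`), then its reduction is a holomorphic
differential of `X₀(M)` over `k = A/𝔪` (`I3.IsHoloSeries k M`).

Inputs (all on main): the reduction datum with good charts and link (`S37.H28.datumStatement`),
the place reduction map (`S37.Red.H940.exists_isRed`), the value-group hypothesis
(`S37.H568.valueGroupHyp_modular`), principal divisors of `F_M` (`Lib.RR.H864`).
-/

set_option autoImplicit false
set_option synthInstance.maxHeartbeats 400000
set_option linter.unusedSectionVars false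
set_option linter.style.haveILetI false

noncomputable section

namespace Fermat.Agent.Ribet.H940

open AlgebraicCurve ModularCurve HahnSeries IsLocalRing IntermediateField
open Fermat.Agent.S37.H940 Fermat.Agent.S37.Red
open Fermat.Agent.Ribet.H764.I3

/-- holomorphy of `g dq/q` on a field of `q`-series -/
def IsHoloOn {k : Type} [Field k] (F : IntermediateField k (LaurentSeries k))
    (g : LaurentSeries k) : Prop :=
  ∀ (Q : Place k F) (t : F), Q.ord t = 1 →
    ∃ u : F, u ∈ Q.toValuationSubring ∧
      g = (u : LaurentSeries k) * thetaL (t : LaurentSeries k)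

theorem isTheta_iff {k : Type} [Field k] (h h' : LaurentSeries k) :
    IsTheta h h' ↔ h' = thetaL h := by
  constructor
  · intro H
    ext n
    rw [thetaL_coeff]
    exact H n
  · rintro rfl n
    exact thetaL_coeff _ _

theorem isHoloSeries_iff {k : Type} [Field k] (M : ℕ) [NeZero M] (g : PowerSeries k) :
    IsHoloSeries k M g ↔
      IsHoloOn (modularFunctionFieldFullC k M) (HahnSeries.ofPowerSeries ℤ k g) := by
  constructor
  · intro H Q t ht
    obtain ⟨u, t', ht', hu, hg⟩ := H Q t ht
    rw [(isTheta_iff _ _).mp ht'] at hg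
    exact ⟨u, hu, hg⟩
  · intro H Q t ht
    obtain ⟨u, hu, hg⟩ := H Q t ht
    exact ⟨u, thetaL (t : LaurentSeries k), (isTheta_iff _ _).mpr rfl, hu, hg⟩

theorem isHoloOn_congr {k : Type} [Field k] {F F' : IntermediateField k (LaurentSeries k)}
    (h : F = F') (g : LaurentSeries k) : IsHoloOn F g ↔ IsHoloOn F' g := by
  subst h
  rfl

/-- the residue field of a valuation subring over `p` has characteristic `p` -/
theorem charP_residue (A : ValuationSubring (AlgebraicClosure ℚ)) {p : ℕ} (hp : p.Prime)
    (hA : A.LiesOverPrime p) : CharP (ResidueField A) p := by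
  have hpm : ((p : ℕ) : A) ∈ IsLocalRing.maximalIdeal A := by
    obtain ⟨ha, hm⟩ := (ValuationSubring.mem_nonunits_iff_exists_mem_maximalIdeal).mp hA
    have : (⟨(p : AlgebraicClosure ℚ), ha⟩ : A) = ((p : ℕ) : A) := by
      apply Subtype.ext; simp
    rwa [this] at hm
  have h0 : ((p : ℕ) : IsLocalRing.ResidueField A) = 0 := by
    have := (IsLocalRing.residue_eq_zero_iff ((p : ℕ) : A)).mpr hpm
    rwa [map_natCast] at this
  exact (CharP.charP_iff_prime_eq_zero hp).mpr h0

/-- `θ j ≠ 0` -/
theorem thetaL_jqModC_ne_zero (k : Type) [Field k] : thetaL (jqModC k) ≠ 0 := by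
  intro h
  have h1 := congrArg (fun f : LaurentSeries k => f.coeff (-1)) h
  simp only [thetaL_coeff, coeff_jqModC_neg_one, HahnSeries.coeff_zero] at h1
  simp at h1

/-- `θ t ≠ 0` for the uniformisers of the function field of `X₀(M)` in characteristic `p` -/
theorem thetaL_unif_ne_zero (k : Type) [Field k] (p M : ℕ) [NeZero M] [Fact p.Prime] [CharP k p]
    [PerfectField k] (x : modularFunctionFieldFullC k M)
    [Algebra.IsSeparable k⟮x⟯ (modularFunctionFieldFullC k M)]
    (Q : Place k (modularFunctionFieldFullC k M))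
    (tb : modularFunctionFieldFullC k M) (h1 : Q.ord tb = 1) :
    thetaL (tb : LaurentSeries k) ≠ 0 :=
  thetaL_ne_zero_of_ord_eq_one (modularFunctionFieldFullC k M) p x
      (j := ⟨jqModC k, jqModC_mem_full k M⟩)
      (thetaL_jqModC_ne_zero k) Q h1

set_option maxHeartbeats 1000000 in
/-- **INC-RED**: the reduction of an integral holomorphic differential is holomorphic. -/
theorem incRed (p M : ℕ) [NeZero M] (hp : p.Prime) (hpM : ¬ p ∣ M)
    (hg : Fermat.Agent.S37.Core.GoodLevel M p)
    (A : ValuationSubring (AlgebraicClosure ℚ)) (hA : A.LiesOverPrime p) (c : ℕ → ℤ)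
    (h : IsHoloSeries (AlgebraicClosure ℚ) M
      (PowerSeries.mk fun n => ((c n : ℤ) : AlgebraicClosure ℚ))) :
    IsHoloSeries (ResidueField A) M (PowerSeries.mk fun n => ((c n : ℤ) : ResidueField A)) := by
  classical
  haveI : Fact p.Prime := ⟨hp⟩
  haveI : IsAlgClosed (ResidueField A) := Fermat.Agent.S18.H9.resAlgClosed _ A
  haveI : CharP (ResidueField A) p := charP_residue A hp hA
  obtain ⟨G, hgood, hlink⟩ := Fermat.Agent.S37.H28.datumStatement M p hp hpM hg A hA
  obtain ⟨r, hred, hEC⟩ := Fermat.Agent.S37.Red.H940.exists_isRed G hgood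
  have hVG : ValueGroupHyp A (residue A) (modularFunctionFieldBar M)
      (modularFunctionFieldFullC (ResidueField A) M) :=
    Fermat.Agent.S37.H568.valueGroupHyp_modular
      (Fermat.Agent.S37.H98.coreData_residueField M p hp hpM A hA)
  haveI := Fermat.Agent.Lib.RR.H864.hasPrincipalDivisors_modularFunctionFieldBar M
  have hdiv : ∀ y : modularFunctionFieldBar M, y ≠ 0 →
      ∃ D : Divisor (AlgebraicClosure ℚ) (modularFunctionFieldBar M), ∀ P, D P = P.ord y := by
    intro y hy
    obtain ⟨D, hD, -⟩ := HasPrincipalDivisors.exists_divisor (K := AlgebraicClosure ℚ) y hy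
    exact ⟨D, hD⟩
  have hlift : LiftProp G r := liftProp_of_good G r hgood hred hEC hdiv
  have hlinkQ : LinkQ G := fun y hy hyk hne => hlink y hy hyk hne
  -- `θ t̄ ≠ 0` for uniformisers
  haveI : Algebra.IsSeparable
      (ResidueField A)⟮G.xk⟯ (modularFunctionFieldFullC (ResidueField A) M) := hgood.sep_k
  have hθ : ∀ (Q : Place (ResidueField A) (modularFunctionFieldFullC (ResidueField A) M))
      (tb : modularFunctionFieldFullC (ResidueField A) M), Q.ord tb = 1 →
      thetaL (tb : LaurentSeries (ResidueField A)) ≠ 0 := by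
    intro Q tb h1
    exact thetaL_unif_ne_zero (ResidueField A) p M G.xk Q tb h1
  -- the integral series
  set G₀ : LaurentSeries A :=
    HahnSeries.ofPowerSeries ℤ A (PowerSeries.mk fun n => ((c n : ℤ) : A)) with hG₀
  have e1 : coeffMap A.subtype G₀ = HahnSeries.ofPowerSeries ℤ (AlgebraicClosure ℚ)
      (PowerSeries.mk fun n => ((c n : ℤ) : AlgebraicClosure ℚ)) := by
    have hmap : PowerSeries.map A.subtype (PowerSeries.mk fun n => ((c n : ℤ) : A)) =
        PowerSeries.mk fun n => ((c n : ℤ) : AlgebraicClosure ℚ) := by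
      ext n
      simp
    rw [hG₀, coeffMap_ofPowerSeries, hmap]
  have e2 : coeffMap (residue A) G₀ = HahnSeries.ofPowerSeries ℤ (ResidueField A)
      (PowerSeries.mk fun n => ((c n : ℤ) : ResidueField A)) := by
    have hmap : PowerSeries.map (residue A) (PowerSeries.mk fun n => ((c n : ℤ) : A)) =
        PowerSeries.mk fun n => ((c n : ℤ) : ResidueField A) := by
      ext n
      simp
    rw [hG₀, coeffMap_ofPowerSeries, hmap]
  rw [isHoloSeries_iff] at h ⊢
  rw [← isHoloOn_congr (Fermat.Agent.S18.H602.modularFunctionFieldBar_eq M)] at h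
  intro Q tb hQ
  obtain ⟨ub, hub, hgk⟩ := holo_red (F := modularFunctionFieldBar M)
    (Fk := modularFunctionFieldFullC (ResidueField A) M) residue_surjective
    (Fermat.Agent.S37.Red.residue_eq_zero_iff_not_isUnit A) G r hVG hlinkQ hred hlift hdiv hθ G₀
    (fun P t ht => by rw [e1]; exact h P t ht) Q tb hQ
  exact ⟨ub, hub, by rw [← e2]; exact hgk⟩

end Fermat.Agent.Ribet.H940
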