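import Fermat.Agent.S37.H940.Line
import Fermat.Agent.Lib.RR.Ord

/-!
# RIBET wall-p, leaf I3 / INC-RED (helper940): local rings are rings of fractions of the chart

`F / K(t)` a function field over an algebraically closed field, `C` the integral closure of `K[t]`
in `F`.  For a place `Q` where `t` is regular, every `f ∈ O_Q` is a fraction `c₁ / c₂` with
`c₁, c₂ ∈ C` and `c₂(Q) ≠ 0` (`exists_frac`).
-/

set_option autoImplicit false
set_option linter.unusedSectionVars false
set_option linter.style.haveILetI false

noncomputable section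

namespace Fermat.Agent.Ribet.H940

open AlgebraicCurve IntermediateField Polynomial
open Fermat.Agent.S37.H940

variable {K F : Type*} [Field K] [Field F] [Algebra K F]
variable [IsAlgClosed K] {t : F} (ht : Transcendental K t) [FiniteDimensional K⟮t⟯ F]

include ht

/-- clearing the poles on the fibre of `Q`, away from `Q` -/
theorem exists_clear_fibre (c : K) (Q : Place K F) (hQ : InMax Q (t - algebraMap K F c))
    (f : F) (hf : 0 ≤ Q.ord f) :
    ∃ d ∈ integralClosure (Algebra.adjoin K {t}) F, d ≠ 0 ∧ Q.ord d = 0 ∧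
      ∀ P : Place K F, InMax P (t - algebraMap K F c) → 0 ≤ P.ord (f * d) := by
  classical
  have key : ∀ (S : Finset (Place K F)) (f : F),
      (∀ P ∈ S, InMax P (t - algebraMap K F c) ∧ P ≠ Q) →
      (∀ P : Place K F, InMax P (t - algebraMap K F c) → P.ord f < 0 → P ∈ S) →
      ∃ d ∈ integralClosure (Algebra.adjoin K {t}) F, d ≠ 0 ∧ Q.ord d = 0 ∧
        ∀ P : Place K F, InMax P (t - algebraMap K F c) → 0 ≤ P.ord (f * d) := by
    intro S
    induction S using Finset.induction_on with
    | empty =>
        intro f _ hpol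
        refine ⟨1, one_mem _, one_ne_zero, Place.ord_one Q, fun P hP => ?_⟩
        rw [mul_one]
        by_contra hneg
        exact absurd (hpol P hP (not_le.mp hneg)) (Finset.notMem_empty P)
    | insert P₁ S hP₁S ih =>
        intro f hS hpol
        rcases eq_or_ne f 0 with rfl | hf0
        · refine ⟨1, one_mem _, one_ne_zero, Place.ord_one Q, fun P _ => ?_⟩
          rw [zero_mul, Place.ord_zero]
        obtain ⟨hP₁fib, hP₁Q⟩ := hS P₁ (Finset.mem_insert_self _ _)
        obtain ⟨τ, hτC, hτ1, hτ0⟩ := Line.exists_localParam ht c P₁ hP₁fib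
        have hτne : τ ≠ 0 := Fermat.Agent.Lib.RR.ne_zero_of_ord_ne_zero P₁ (by rw [hτ1]; norm_num)
        set n : ℕ := (-(P₁.ord f)).toNat with hn
        have hτn : τ ^ n ≠ 0 := pow_ne_zero n hτne
        have hord : ∀ P : Place K F, P.ord (f * τ ^ n) = P.ord f + n * P.ord τ := fun P => by
          rw [P.ord_mul hf0 hτn, Fermat.Agent.Lib.RR.ord_pow]
        obtain ⟨d', hd'C, hd'0, hd'Q, hd'⟩ := ih (f * τ ^ n)
          (fun P hP => hS P (Finset.mem_insert_of_mem hP))
          (by
            intro P hP hneg
            rw [hord] at hneg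
            rcases eq_or_ne P P₁ with rfl | hne
            · exfalso
              rw [hτ1, mul_one] at hneg
              have : -(P.ord f) ≤ (n : ℤ) := Int.self_le_toNat _
              omega
            · rw [hτ0 P hP hne, mul_zero, add_zero] at hneg
              rcases Finset.mem_insert.mp (hpol P hP hneg) with h | h
              · exact absurd h hne
              · exact h)
        refine ⟨τ ^ n * d', mul_mem (pow_mem hτC n) hd'C, mul_ne_zero hτn hd'0, ?_, fun P hP => ?_⟩
        · rw [Q.ord_mul hτn hd'0, Fermat.Agent.Lib.RR.ord_pow, hτ0 Q hQ (Ne.symm hP₁Q), mul_zero,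
            hd'Q, add_zero]
        · rw [← mul_assoc]
          exact hd' P hP
  -- the finite set of poles on the fibre
  have hfin : {P : Place K F | InMax P (t - algebraMap K F c)}.Finite := Line.finite_fibre ht c
  refine key (hfin.toFinset.filter fun P => P ≠ Q) f ?_ ?_
  · intro P hP
    rw [Finset.mem_filter, Set.Finite.mem_toFinset] at hP
    exact hP
  · intro P hP hneg
    rw [Finset.mem_filter, Set.Finite.mem_toFinset]
    refine ⟨hP, ?_⟩
    rintro rfl
    omega

/-- **Local rings are rings of fractions of the chart.** -/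
theorem exists_frac (Q : Place K F) (hQ : 0 ≤ Q.ord t) (f : F) (hf : 0 ≤ Q.ord f) :
    ∃ c₁ ∈ integralClosure (Algebra.adjoin K {t}) F,
      ∃ c₂ ∈ integralClosure (Algebra.adjoin K {t}) F, c₂ ≠ 0 ∧ Q.ord c₂ = 0 ∧ f * c₂ = c₁ := by
  obtain ⟨c, hc⟩ := Line.exists_value ht Q hQ
  obtain ⟨d, hdC, hd0, hdQ, hd⟩ := exists_clear_fibre ht c Q hc f hf
  obtain ⟨p, hp, hpreg⟩ := Line.exists_clear ht c (f * d) hd
  obtain ⟨hp0, hpQ⟩ := Line.aeval_unit_on_fibre ht hp hc
  have hpC : aeval t p ∈ integralClosure (Algebra.adjoin K {t}) F :=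
    Line.mem_integralClosure_of_regular ht _ fun P hP => Line.regular_aeval P hP p
  refine ⟨f * d * aeval t p, Line.mem_integralClosure_of_regular ht _ hpreg,
    d * aeval t p, mul_mem hdC hpC, mul_ne_zero hd0 hp0, ?_, by ring⟩
  rw [Q.ord_mul hd0 hp0, hdQ, hpQ, add_zero]

end Fermat.Agent.Ribet.H940
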