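import Fermat.Agent.Ribet.H940.IncRedCore
import Fermat.Agent.Ribet.H940.LineFrac

/-!
# RIBET wall-p, leaf I3 / INC-RED (helper940): LIFT of uniformisers

For a reduction datum `G` with good charts and a place reduction map `r` with the sum formula
(`IsRed`) and evaluation compatibility (`EvalCompat`):

* `ord_le_of_isRed`       : a function of `O` regular on `r⁻¹(Q)` has `ord_P y ≤ ord_Q (ρ y)`;
* `value_mem_of_isRed`    : its values on `r⁻¹(Q)` lie in `A`;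
* `value_compat_of_isRed` : and `(ρ y)(Q) = π (y(P))`;
* `exists_regular_lift`   : every function regular at `Q` has a lift regular on `r⁻¹(Q)`
                            (fractions of the chart + normality `lift_fin`/`lift_inf`);
* `liftProp_of_good`      : `LiftProp G r`.
-/

set_option autoImplicit false
set_option synthInstance.maxHeartbeats 400000
set_option linter.unusedSectionVars false
set_option linter.style.haveILetI false

noncomputable section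

namespace Fermat.Agent.Ribet.H940

open AlgebraicCurve IntermediateField
open Fermat.Agent.S37.H940 Fermat.Agent.S37.Red Fermat.Agent.S37.Red.H940

universe u

variable {K k F Fk : Type u} [Field K] [Field k] [Field F] [Field Fk]
  [Algebra K F] [Algebra k Fk] {A : ValuationSubring K} {π : A →+* k}
  (G : Datum A π F Fk) (r : Place K F → Place k Fk)

/-- (S) the sum formula at one point, as an inequality -/
theorem ord_le_of_isRed (hred : IsRed G r)
    (hdiv : ∀ y : F, y ≠ 0 → ∃ D : Divisor K F, ∀ P, D P = P.ord y)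
    (y : F) (hy : y ∈ G.O) (hρ : G.ρ ⟨y, hy⟩ ≠ 0) (Q : Place k Fk)
    (hreg : ∀ P, r P = Q → 0 ≤ P.ord y) (P : Place K F) (hP : r P = Q) :
    P.ord y ≤ Q.ord (G.ρ ⟨y, hy⟩) := by
  classical
  have hy0 : y ≠ 0 := by
    rintro rfl
    apply hρ
    have : (⟨0, hy⟩ : G.O) = 0 := rfl
    rw [this, map_zero]
  obtain ⟨D, hD⟩ := hdiv y hy0
  rw [← hred.2 y hy hρ D hD Q, mapDomain_apply_eq_sum]
  have hnn : ∀ P' ∈ D.support, 0 ≤ (if r P' = Q then D P' else 0) := by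
    intro P' _
    split_ifs with h
    · rw [hD]
      exact hreg P' h
    · exact le_rfl
  by_cases hPs : P ∈ D.support
  · have := Finset.single_le_sum hnn hPs
    rw [if_pos hP, hD] at this
    exact this
  · have h0 : D P = 0 := Finsupp.notMem_support_iff.mp hPs
    rw [← hD, h0]
    exact Finset.sum_nonneg hnn

/-- (V1) values on `r⁻¹(Q)` of functions of `O` regular on `r⁻¹(Q)` lie in `A` -/
theorem value_mem_of_isRed (hred : IsRed G r)
    (hdiv : ∀ y : F, y ≠ 0 → ∃ D : Divisor K F, ∀ P, D P = P.ord y)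
    (y : F) (hy : y ∈ G.O) (Q : Place k Fk)
    (hreg : ∀ P, r P = Q → 0 ≤ P.ord y) (P : Place K F) (hP : r P = Q) (β : K)
    (hβ : InMax P (y - algebraMap K F β)) : β ∈ A := by
  by_contra hβA
  obtain ⟨a, ha, hπ⟩ : ∃ a : A, (a : K) = β⁻¹ ∧ π a = 0 := (ctx G).exists_inv_of_not_mem hβA
  have hβ0 : β ≠ 0 := by
    rintro rfl
    exact hβA (zero_mem _)
  -- `z = 1 - β⁻¹ y`
  have hz : 1 - algebraMap K F (a : K) * y ∈ G.O :=
    sub_mem (one_mem _) (mul_mem (G.const_mem a) hy)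
  have hzρ : G.ρ ⟨1 - algebraMap K F (a : K) * y, hz⟩ = 1 := by
    have e : (⟨1 - algebraMap K F (a : K) * y, hz⟩ : G.O) =
        1 - ⟨algebraMap K F (a : K), G.const_mem a⟩ * ⟨y, hy⟩ := rfl
    rw [e, map_sub, map_mul, map_one, G.ρ_const]
    have hπ' : π a = 0 := hπ
    rw [hπ', map_zero, zero_mul, sub_zero]
  have hzρ0 : G.ρ ⟨1 - algebraMap K F (a : K) * y, hz⟩ ≠ 0 := by
    rw [hzρ]
    exact one_ne_zero
  have hzreg : ∀ P', r P' = Q → 0 ≤ P'.ord (1 - algebraMap K F (a : K) * y) := by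
    intro P' hP'
    refine ord_nonneg_sub ?_ (ord_nonneg_mul (ord_nonneg_const P' _) (hreg P' hP'))
    rw [Place.ord_one]
  have hzmax : InMax P (1 - algebraMap K F (a : K) * y) := by
    have e : 1 - algebraMap K F (a : K) * y =
        algebraMap K F (-(a : K)) * (y - algebraMap K F β) := by
      rw [ha, map_neg, map_inv₀]
      have hβ' : algebraMap K F β ≠ 0 := by
        rwa [Ne, map_eq_zero_iff _ (algebraMap K F).injective]
      field_simp
      ring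
    rw [e]
    exact hβ.const_mul _
  have hz0 : 1 - algebraMap K F (a : K) * y ≠ 0 := by
    intro h0
    apply hzρ0
    have : (⟨1 - algebraMap K F (a : K) * y, hz⟩ : G.O) = 0 := Subtype.ext h0
    rw [this, map_zero]
  have h1 := ord_le_of_isRed G r hred hdiv _ hz hzρ0 Q hzreg P hP
  rw [hzρ, Place.ord_one] at h1
  have h2 := hzmax.ord_pos hz0
  omega

/-- (V2) value compatibility on `r⁻¹(Q)` -/
theorem value_compat_of_isRed (hred : IsRed G r)
    (hdiv : ∀ y : F, y ≠ 0 → ∃ D : Divisor K F, ∀ P, D P = P.ord y)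
    (y : F) (hy : y ∈ G.O) (Q : Place k Fk)
    (hreg : ∀ P, r P = Q → 0 ≤ P.ord y) (P : Place K F) (hP : r P = Q) (β : A)
    (hβ : InMax P (y - algebraMap K F (β : K))) :
    InMax Q (G.ρ ⟨y, hy⟩ - algebraMap k Fk (π β)) := by
  have hz : y - algebraMap K F (β : K) ∈ G.O := sub_mem hy (G.const_mem β)
  have hzρ : G.ρ ⟨y - algebraMap K F (β : K), hz⟩ = G.ρ ⟨y, hy⟩ - algebraMap k Fk (π β) := by
    have e : (⟨y - algebraMap K F (β : K), hz⟩ : G.O) =
        ⟨y, hy⟩ - ⟨algebraMap K F (β : K), G.const_mem β⟩ := rfl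
    rw [e, map_sub, G.ρ_const]
  rw [← hzρ]
  by_cases h0 : G.ρ ⟨y - algebraMap K F (β : K), hz⟩ = 0
  · rw [h0]
    exact inMax_zero Q
  · have hz0 : y - algebraMap K F (β : K) ≠ 0 := by
      intro h
      apply h0
      have : (⟨y - algebraMap K F (β : K), hz⟩ : G.O) = 0 := Subtype.ext h
      rw [this, map_zero]
    have h1 := ord_le_of_isRed G r hred hdiv _ hz h0 Q
      (fun P' hP' => ord_nonneg_sub (hreg P' hP') (ord_nonneg_const P' _)) P hP
    have h2 := hβ.ord_pos hz0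
    exact inMax_of_ord_pos (by omega)

/-- `t` lies in its own chart -/
theorem mem_chart_self (t : F) : t ∈ G.chart t := by
  have ht : t ∈ G.polyRing t :=
    (le_sup_right : Subring.closure {t} ≤ G.polyRing t) (Subring.subset_closure rfl)
  exact isIntegral_algebraMap (R := G.polyRing t) (A := F) (x := ⟨t, ht⟩)

/-- (L3) the chart coordinate is regular on `r⁻¹(Q)` if its reduction is regular at `Q` -/
theorem regular_of_evalCompat {T : F} (hT : T ∈ G.O) (hTi : T⁻¹ ∈ G.O)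
    (hec : EvalCompatAt G r T⁻¹) (Q : Place k Fk) (hQ : 0 ≤ Q.ord (G.ρ ⟨T, hT⟩))
    (P : Place K F) (hP : r P = Q) : 0 ≤ P.ord T := by
  by_contra hneg
  rw [not_le] at hneg
  have hT0 : T ≠ 0 := by
    rintro rfl
    rw [Place.ord_zero] at hneg
    exact lt_irrefl _ hneg
  have hinv : InMax P (T⁻¹ - algebraMap K F ((0 : A) : K)) := by
    rw [ZeroMemClass.coe_zero, map_zero, sub_zero]
    refine inMax_of_ord_pos ?_
    rw [Place.ord_inv]
    omega
  have hval : ValAt P T⁻¹ ((0 : A) : K) := (valAt_iff_inMax P _ _).mpr hinv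
  have h1 := hec P 0 hval T⁻¹ (mem_chart_self G T⁻¹) hTi 0 hval
  rw [hP, valAt_iff_inMax, map_zero, map_zero, sub_zero] at h1
  have hmul : (⟨T, hT⟩ : G.O) * ⟨T⁻¹, hTi⟩ = 1 := Subtype.ext (mul_inv_cancel₀ hT0)
  have h2 := congrArg G.ρ hmul
  rw [map_mul, map_one] at h2
  have h3 : G.ρ ⟨T⁻¹, hTi⟩ = (G.ρ ⟨T, hT⟩)⁻¹ := eq_inv_of_mul_eq_one_right h2
  have h4 : G.ρ ⟨T⁻¹, hTi⟩ ≠ 0 := right_ne_zero_of_mul_eq_one h2
  have h5 := h1.ord_pos h4
  rw [h3, Place.ord_inv] at h5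
  omega

section Lift

variable [IsAlgClosed k]

/-- (L5) **regular lifts**: on a chart, every function regular at `Q` has a lift in `O` which is
regular at all places over `Q`. -/
theorem exists_regular_lift {T : F} (hT : T ∈ G.O) (hTi : T⁻¹ ∈ G.O) {Tk : Fk}
    (hTk : G.ρ ⟨T, hT⟩ = Tk) (htr : Transcendental k Tk) [FiniteDimensional k⟮Tk⟯ Fk]
    (hlift : ∀ c ∈ G.chartk Tk, ∃ b ∈ G.chart T, ∃ hb : b ∈ G.O, G.ρ ⟨b, hb⟩ = c)
    (hec : EvalCompatAt G r T⁻¹) (hred : IsRed G r)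
    (hdiv : ∀ y : F, y ≠ 0 → ∃ D : Divisor K F, ∀ P, D P = P.ord y)
    (hval : ∀ (P : Place K F) (f : F), 0 ≤ P.ord f → ∃ c : K, InMax P (f - algebraMap K F c))
    (Q : Place k Fk) (hQ : 0 ≤ Q.ord Tk) (w : Fk) (hw : 0 ≤ Q.ord w) :
    ∃ (t : F) (ht : t ∈ G.O), G.ρ ⟨t, ht⟩ = w ∧ ∀ P, r P = Q → 0 ≤ P.ord t := by
  obtain ⟨c₁, hc₁, c₂, hc₂, hc₂0, hc₂Q, hwc⟩ := exists_frac htr Q hQ w hw
  obtain ⟨b₁, hb₁, hb₁O, hρ₁⟩ := hlift c₁ hc₁
  obtain ⟨b₂, hb₂, hb₂O, hρ₂⟩ := hlift c₂ hc₂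
  have hTreg : ∀ P, r P = Q → 0 ≤ P.ord T := fun P hP =>
    regular_of_evalCompat G r hT hTi hec Q (by rw [hTk]; exact hQ) P hP
  have hreg₁ : ∀ P, r P = Q → 0 ≤ P.ord b₁ := fun P hP =>
    regular_of_mem_chart G hb₁ P (hTreg P hP)
  have hreg₂ : ∀ P, r P = Q → 0 ≤ P.ord b₂ := fun P hP =>
    regular_of_mem_chart G hb₂ P (hTreg P hP)
  have hρ₂0 : G.ρ ⟨b₂, hb₂O⟩ ≠ 0 := by
    rw [hρ₂]
    exact hc₂0
  have hb₂inv : b₂⁻¹ ∈ G.O := (ctx G).inv_mem ⟨b₂, hb₂O⟩ hρ₂0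
  have hρinv : G.ρ ⟨b₂⁻¹, hb₂inv⟩ = c₂⁻¹ := by
    have := (ctx G).ρ_inv ⟨b₂, hb₂O⟩ hρ₂0
    rw [← hρ₂]
    exact this
  refine ⟨b₁ * b₂⁻¹, mul_mem hb₁O hb₂inv, ?_, fun P hP => ?_⟩
  · have e : (⟨b₁ * b₂⁻¹, mul_mem hb₁O hb₂inv⟩ : G.O) = ⟨b₁, hb₁O⟩ * ⟨b₂⁻¹, hb₂inv⟩ := rfl
    rw [e, map_mul, hρ₁, hρinv, ← hwc, mul_assoc, mul_inv_cancel₀ hc₂0, mul_one]
  · -- `b₂` is a unit at `P`
    obtain ⟨β₂, hβ₂⟩ := hval P b₂ (hreg₂ P hP)
    have hβ₂A : β₂ ∈ A := value_mem_of_isRed G r hred hdiv b₂ hb₂O Q hreg₂ P hP β₂ hβ₂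
    have hcompat := value_compat_of_isRed G r hred hdiv b₂ hb₂O Q hreg₂ P hP ⟨β₂, hβ₂A⟩ hβ₂
    rw [hρ₂] at hcompat
    have hβ₂0 : β₂ ≠ 0 := by
      rintro rfl
      have h0 : (⟨0, hβ₂A⟩ : A) = 0 := rfl
      rw [h0, map_zero, map_zero, sub_zero] at hcompat
      exact not_inMax_of_ord_eq_zero hc₂0 hc₂Q hcompat
    have hord₂ : P.ord b₂ = 0 := ord_eq_zero_of_inMax_sub hβ₂ hβ₂0
    refine ord_nonneg_mul (hreg₁ P hP) ?_
    rw [Place.ord_inv, hord₂, neg_zero]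

variable [IsAlgClosed K]

/-- **LIFT on one chart.** -/
theorem liftProp_chart {T : F} (hT : T ∈ G.O) (hTi : T⁻¹ ∈ G.O) {Tk : Fk}
    (hTk : G.ρ ⟨T, hT⟩ = Tk) (htr : Transcendental k Tk) [FiniteDimensional k⟮Tk⟯ Fk]
    (hlift : ∀ c ∈ G.chartk Tk, ∃ b ∈ G.chart T, ∃ hb : b ∈ G.O, G.ρ ⟨b, hb⟩ = c)
    (hec : EvalCompatAt G r T⁻¹) (hred : IsRed G r)
    (hdiv : ∀ y : F, y ≠ 0 → ∃ D : Divisor K F, ∀ P, D P = P.ord y)
    (hval : ∀ (P : Place K F) (f : F), 0 ≤ P.ord f → ∃ c : K, InMax P (f - algebraMap K F c))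
    (Q : Place k Fk) (hQ : 0 ≤ Q.ord Tk) (tb : Fk) (htb : Q.ord tb = 1) :
    ∃ (t : F) (ht : t ∈ G.O), G.ρ ⟨t, ht⟩ = tb ∧
      ∀ P : Place K F, r P = Q → ∃ c : K, P.ord (t - algebraMap K F c) = 1 := by
  obtain ⟨t, ht, hρt, hreg⟩ := exists_regular_lift G r hT hTi hTk htr hlift hec hred hdiv hval
    Q hQ tb (by rw [htb]; norm_num)
  refine ⟨t, ht, hρt, fun P hP => ?_⟩
  have htb0 : tb ≠ 0 := Fermat.Agent.Lib.RR.ne_zero_of_ord_ne_zero Q (by rw [htb]; norm_num)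
  obtain ⟨β, hβ⟩ := hval P t (hreg P hP)
  have hβA : β ∈ A := value_mem_of_isRed G r hred hdiv t ht Q hreg P hP β hβ
  have hcompat := value_compat_of_isRed G r hred hdiv t ht Q hreg P hP ⟨β, hβA⟩ hβ
  rw [hρt] at hcompat
  have hπ : π ⟨β, hβA⟩ = 0 := by
    have h1 : InMax Q tb := inMax_of_ord_pos (by rw [htb]; norm_num)
    have h2 := h1.sub hcompat
    rw [sub_sub_cancel, inMax_algebraMap_iff] at h2
    exact h2
  have hz : t - algebraMap K F β ∈ G.O := sub_mem ht (G.const_mem ⟨β, hβA⟩)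
  have hzρ : G.ρ ⟨t - algebraMap K F β, hz⟩ = tb := by
    have e : (⟨t - algebraMap K F β, hz⟩ : G.O) =
        ⟨t, ht⟩ - ⟨algebraMap K F ((⟨β, hβA⟩ : A) : K), G.const_mem ⟨β, hβA⟩⟩ := rfl
    rw [e, map_sub, G.ρ_const, hρt, hπ, map_zero, sub_zero]
  have hzρ0 : G.ρ ⟨t - algebraMap K F β, hz⟩ ≠ 0 := by
    rw [hzρ]
    exact htb0
  have hz0 : t - algebraMap K F β ≠ 0 := by
    intro h
    apply hzρ0
    have : (⟨t - algebraMap K F β, hz⟩ : G.O) = 0 := Subtype.ext h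
    rw [this, map_zero]
  have h1 := ord_le_of_isRed G r hred hdiv _ hz hzρ0 Q
    (fun P' hP' => ord_nonneg_sub (hreg P' hP') (ord_nonneg_const P' _)) P hP
  rw [hzρ, htb] at h1
  have h2 := hβ.ord_pos hz0
  exact ⟨β, by omega⟩

/-- **LIFT** for a reduction datum with good charts. -/
theorem liftProp_of_good (hG : G.Good) (hred : IsRed G r) (hEC : EvalCompat G r)
    (hdiv : ∀ y : F, y ≠ 0 → ∃ D : Divisor K F, ∀ P, D P = P.ord y) : LiftProp G r := by
  intro Q tb htb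
  have htrK : Transcendental K G.x := (ctx G).transcendental_of_ρ (t := cx G) (transc_cx G)
  haveI : FiniteDimensional K⟮G.x⟯ F := hG.finite
  have hval : ∀ (P : Place K F) (f : F), 0 ≤ P.ord f →
      ∃ c : K, InMax P (f - algebraMap K F c) := fun P f hf => Line.exists_value htrK P hf
  by_cases hQ : 0 ≤ Q.ord G.xk
  · -- the finite chart
    haveI : FiniteDimensional k⟮G.xk⟯ Fk := hG.finite_k
    exact liftProp_chart G r G.x_mem (xinv_mem G) (Tk := G.xk) rfl G.xk_transc hG.lift_fin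
      hEC.2 hred hdiv hval Q hQ tb htb
  · -- the chart at infinity
    rw [not_le] at hQ
    have hxi : (G.x⁻¹)⁻¹ ∈ G.O := by
      rw [inv_inv]
      exact G.x_mem
    have hTk : G.ρ ⟨G.x⁻¹, xinv_mem G⟩ = G.xk⁻¹ := (ctx G).ρ_inv (cx G) (xk_ne_zero G)
    have htr : Transcendental k G.xk⁻¹ := by
      have := transcendental_ρ_xinv (ctx G) (cx G) (transc_cx G)
      rwa [ρ_xinv] at this
    haveI : FiniteDimensional k⟮G.xk⟯ Fk := hG.finite_k
    have hxtr : Transcendental k G.xk := G.xk_transc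
    haveI : FiniteDimensional k⟮G.xk⁻¹⟯ Fk :=
      Fermat.Agent.S24.FF.finiteDimensional_adjoin_of_transcendental hxtr htr
    have hec : EvalCompatAt G r (G.x⁻¹)⁻¹ := by
      rw [inv_inv]
      exact hEC.1
    exact liftProp_chart G r (xinv_mem G) hxi hTk htr hG.lift_inf hec hred hdiv hval Q
      (by rw [Place.ord_inv]; omega) tb htb

end Lift

end Fermat.Agent.Ribet.H940
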