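import Mathlib
import Fermat.Prelude.Def_ModularCurve_LaurentCoeff

/-!
# RIBET wall-p, leaf I3 (helper940): the derivation `θ = q d/dq` on Laurent series

`thetaL f = ∑ n · aₙ qⁿ`.  Additive, Leibniz rule, compatible with coefficient maps, kills
constants and (in characteristic `p`) `p`-th powers.
-/

set_option autoImplicit false

noncomputable section

namespace Fermat.Agent.Ribet.H940

open HahnSeries ModularCurve

variable {R S : Type*} [CommRing R] [CommRing S]

/-- `θ = q d/dq` on Laurent series. -/
def thetaL (f : LaurentSeries R) : LaurentSeries R where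
  coeff n := (n : R) * f.coeff n
  isPWO_support' := f.isPWO_support.mono fun n hn h0 => hn (by
    show (n : R) * f.coeff n = 0
    rw [show f.coeff n = 0 from h0, mul_zero])

@[simp] theorem thetaL_coeff (f : LaurentSeries R) (n : ℤ) :
    (thetaL f).coeff n = (n : R) * f.coeff n := rfl

theorem support_thetaL_subset (f : LaurentSeries R) : (thetaL f).support ⊆ f.support :=
  fun n hn h0 => hn (by
    show (n : R) * f.coeff n = 0
    rw [show f.coeff n = 0 from h0, mul_zero])

@[simp] theorem thetaL_zero : thetaL (0 : LaurentSeries R) = 0 := by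
  ext n; simp

theorem thetaL_add (f g : LaurentSeries R) : thetaL (f + g) = thetaL f + thetaL g := by
  ext n; simp [mul_add]

theorem thetaL_neg (f : LaurentSeries R) : thetaL (-f) = -thetaL f := by
  ext n; simp

theorem thetaL_sub (f g : LaurentSeries R) : thetaL (f - g) = thetaL f - thetaL g := by
  ext n; simp [mul_sub]

/-- `θ` as an additive map. -/
def thetaAdd : LaurentSeries R →+ LaurentSeries R where
  toFun := thetaL
  map_zero' := thetaL_zero
  map_add' := thetaL_add

@[simp] theorem thetaAdd_apply (f : LaurentSeries R) : thetaAdd f = thetaL f := rfl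

theorem thetaL_sum {ι : Type*} (s : Finset ι) (f : ι → LaurentSeries R) :
    thetaL (∑ i ∈ s, f i) = ∑ i ∈ s, thetaL (f i) :=
  map_sum (thetaAdd (R := R)) f s

/-- **Leibniz rule.** -/
theorem thetaL_mul (f g : LaurentSeries R) :
    thetaL (f * g) = thetaL f * g + f * thetaL g := by
  ext n
  rw [thetaL_coeff, HahnSeries.coeff_add, HahnSeries.coeff_mul,
    HahnSeries.coeff_mul_left' f.isPWO_support (support_thetaL_subset f),
    HahnSeries.coeff_mul_right' g.isPWO_support (support_thetaL_subset g),
    Finset.mul_sum, ← Finset.sum_add_distrib]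
  refine Finset.sum_congr rfl fun ij hij => ?_
  have h : ij.1 + ij.2 = n := (Finset.mem_addAntidiagonal.mp hij).2.2
  rw [thetaL_coeff, thetaL_coeff, ← h]
  push_cast
  ring

theorem thetaL_coeffMap (φ : R →+* S) (f : LaurentSeries R) :
    thetaL (coeffMap φ f) = coeffMap φ (thetaL f) := by
  ext n
  simp [map_mul]

theorem thetaL_single_zero (c : R) : thetaL (HahnSeries.single (0 : ℤ) c) = 0 := by
  ext n
  rcases eq_or_ne n 0 with rfl | hn
  · simp
  · simp [HahnSeries.coeff_single_of_ne hn]

@[simp] theorem thetaL_one : thetaL (1 : LaurentSeries R) = 0 := by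
  have h : (1 : LaurentSeries R) = HahnSeries.single (0 : ℤ) (1 : R) := rfl
  rw [h, thetaL_single_zero]

theorem thetaL_C (c : R) : thetaL (HahnSeries.C c : LaurentSeries R) = 0 :=
  thetaL_single_zero c

theorem thetaL_C_mul (c : R) (f : LaurentSeries R) :
    thetaL (HahnSeries.C c * f) = HahnSeries.C c * thetaL f := by
  rw [thetaL_mul, thetaL_C, zero_mul, zero_add]

theorem thetaL_pow (f : LaurentSeries R) (n : ℕ) :
    thetaL (f ^ (n + 1)) = ((n + 1 : ℕ) : LaurentSeries R) * f ^ n * thetaL f := by
  induction n with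
  | zero => simp
  | succ n ih =>
      rw [pow_succ, thetaL_mul, ih]
      push_cast
      ring

/-- in characteristic `p`, `θ` kills `p`-th powers -/
theorem thetaL_pow_char (p : ℕ) [hp : Fact p.Prime] [CharP R p] (f : LaurentSeries R) :
    thetaL (f ^ p) = 0 := by
  obtain ⟨m, rfl⟩ : ∃ m, p = m + 1 := ⟨p - 1, (Nat.succ_pred_eq_of_pos hp.out.pos).symm⟩
  rw [thetaL_pow]
  have h0 : (((m + 1 : ℕ) : R)) = 0 := CharP.cast_eq_zero R (m + 1)
  have h1 : (((m + 1 : ℕ) : LaurentSeries R)) = HahnSeries.C (((m + 1 : ℕ) : R)) :=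
    (map_natCast (HahnSeries.C : R →+* LaurentSeries R) (m + 1)).symm
  rw [h1, h0, map_zero, zero_mul, zero_mul]

section Field

variable {K : Type*} [Field K]

theorem thetaL_algebraMap (c : K) : thetaL (algebraMap K (LaurentSeries K) c) = 0 := by
  rw [algebraMap_laurentSeries_eq_single, thetaL_single_zero]

theorem thetaL_inv (f : LaurentSeries K) (hf : f ≠ 0) :
    thetaL f⁻¹ = -(thetaL f) * (f⁻¹) ^ 2 := by
  have h := thetaL_mul f f⁻¹
  rw [mul_inv_cancel₀ hf, thetaL_one] at h
  have h2 : f * thetaL f⁻¹ = -(thetaL f * f⁻¹) := by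
    rw [eq_neg_iff_add_eq_zero, add_comm]
    exact h.symm
  have h3 : thetaL f⁻¹ = f⁻¹ * (f * thetaL f⁻¹) := by
    rw [← mul_assoc, inv_mul_cancel₀ hf, one_mul]
  rw [h3, h2]
  ring

theorem thetaL_div (f g : LaurentSeries K) (hg : g ≠ 0) :
    thetaL (f / g) = (thetaL f * g - f * thetaL g) * (g⁻¹) ^ 2 := by
  rw [div_eq_mul_inv, thetaL_mul, thetaL_inv g hg]
  field_simp
  ring

/-- in characteristic zero, `θ f = 0` only for constants -/
theorem eq_C_of_thetaL_eq_zero [CharZero K] {f : LaurentSeries K} (h : thetaL f = 0) :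
    f = algebraMap K (LaurentSeries K) (f.coeff 0) := by
  rw [algebraMap_laurentSeries_eq_single]
  ext n
  rcases eq_or_ne n 0 with rfl | hn
  · simp
  · rw [HahnSeries.coeff_single_of_ne hn]
    have h1 : (thetaL f).coeff n = 0 := by rw [h]; rfl
    rw [thetaL_coeff] at h1
    rcases mul_eq_zero.mp h1 with h2 | h2
    · exact absurd (by exact_mod_cast h2) hn
    · exact h2

end Field

end Fermat.Agent.Ribet.H940
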